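/-
S48 (Deligne-Serre), seat END (helper2), file 1: pure algebra.

* `lucV t d j`: the Lucas sequence `V_j(t, d)` (`= u ^ j + v ^ j` if `t = u + v`, `d = u v`);
* `trace_pow_eq_lucV`, `det_pow_eq`: trace and determinant of the powers of a `2 × 2` matrix;
* `eq_one_of_pow_eq_one`: a `2 × 2` matrix over a field with `g ^ M = 1`, `M ≠ 0` in the field,
  trace `2` and determinant `1` is the identity;
* `IsUPair M t d`: `t = u + v`, `d = u v` with `u ^ M = v ^ M = 1`.
-/
import Mathlib

set_option autoImplicit false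

namespace Fermat.Agent.S48.Endgame

open Matrix

section Lucas

variable {R : Type*} [CommRing R]

/-- The Lucas sequence `V_j(t, d)`: `V_0 = 2`, `V_1 = t`, `V_{j+2} = t V_{j+1} - d V_j`. -/
def lucV (t d : R) : ℕ → R
  | 0 => 2
  | 1 => t
  | (j + 2) => t * lucV t d (j + 1) - d * lucV t d j

@[simp] theorem lucV_zero (t d : R) : lucV t d 0 = 2 := by rw [lucV]

@[simp] theorem lucV_one (t d : R) : lucV t d 1 = t := by rw [lucV]

theorem lucV_succ_succ (t d : R) (j : ℕ) :
    lucV t d (j + 2) = t * lucV t d (j + 1) - d * lucV t d j := by rw [lucV]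

theorem map_lucV {S : Type*} [CommRing S] (φ : R →+* S) (t d : R) (j : ℕ) :
    φ (lucV t d j) = lucV (φ t) (φ d) j := by
  induction j using Nat.twoStepInduction with
  | zero => rw [lucV_zero, lucV_zero, map_ofNat]
  | one => simp
  | more j h1 h2 => rw [lucV_succ_succ, lucV_succ_succ, map_sub, map_mul, map_mul, h1, h2]

theorem lucV_add_mul (u v : R) (j : ℕ) : lucV (u + v) (u * v) j = u ^ j + v ^ j := by
  induction j using Nat.twoStepInduction with
  | zero => simp; norm_num
  | one => simp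
  | more j h1 h2 => rw [lucV_succ_succ, h1, h2]; ring

/-- Cayley–Hamilton for `2 × 2` matrices. -/
theorem sq_eq_trace_smul_sub (N : Matrix (Fin 2) (Fin 2) R) :
    N ^ 2 = N.trace • N - N.det • (1 : Matrix (Fin 2) (Fin 2) R) := by
  ext i j
  fin_cases i <;> fin_cases j <;>
    simp [pow_two, Matrix.mul_apply, Fin.sum_univ_two, Matrix.trace_fin_two, Matrix.det_fin_two] <;>
    ring

theorem pow_succ_succ_eq (N : Matrix (Fin 2) (Fin 2) R) (j : ℕ) :
    N ^ (j + 2) = N.trace • N ^ (j + 1) - N.det • N ^ j := by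
  rw [pow_add, sq_eq_trace_smul_sub, mul_sub, Matrix.mul_smul, Matrix.mul_smul, mul_one, pow_succ]

theorem trace_pow_eq_lucV (N : Matrix (Fin 2) (Fin 2) R) (j : ℕ) :
    (N ^ j).trace = lucV N.trace N.det j := by
  induction j using Nat.twoStepInduction with
  | zero => simp [Matrix.trace_one]
  | one => simp
  | more j h1 h2 =>
    rw [pow_succ_succ_eq, lucV_succ_succ, Matrix.trace_sub, Matrix.trace_smul, Matrix.trace_smul,
      h1, h2, smul_eq_mul, smul_eq_mul]

theorem det_pow_eq (N : Matrix (Fin 2) (Fin 2) R) (j : ℕ) : (N ^ j).det = N.det ^ j :=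
  Matrix.det_pow N j

/-- Trace and determinant of a `2 × 2` matrix from its characteristic polynomial. -/
theorem trace_det_of_charpoly [Nontrivial R] (N : Matrix (Fin 2) (Fin 2) R) (t d : R)
    (h : N.charpoly = Polynomial.X ^ 2 - Polynomial.C t * Polynomial.X + Polynomial.C d) :
    N.trace = t ∧ N.det = d := by
  rw [Matrix.charpoly_fin_two] at h
  have h1 := congrArg (fun q => Polynomial.coeff q 1) h
  have h0 := congrArg (fun q => Polynomial.coeff q 0) h
  simp [Polynomial.coeff_X, Polynomial.coeff_C] at h1 h0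
  exact ⟨h1, h0⟩

end Lucas

section Unipotent

variable {k : Type*} [Field k]

/-- A `2 × 2` matrix of finite order prime to the characteristic with trace `2` and determinant
`1` is the identity. -/
theorem eq_one_of_pow_eq_one (g : Matrix (Fin 2) (Fin 2) k) (M : ℕ) (hM : (M : k) ≠ 0)
    (hg : g ^ M = 1) (ht : g.trace = 2) (hd : g.det = 1) : g = 1 := by
  have hsq : g ^ 2 = (2 : k) • g - 1 := by
    rw [sq_eq_trace_smul_sub, ht, hd, one_smul]
  have hn : (g - 1) * (g - 1) = 0 := by
    have : (g - 1) * (g - 1) = g ^ 2 - (2 : k) • g + 1 := by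
      rw [pow_two, sub_mul, mul_sub, mul_one, one_mul, two_smul]
      abel
    rw [this, hsq]
    abel
  obtain ⟨n, hn'⟩ : ∃ n : Matrix (Fin 2) (Fin 2) k, n = g - 1 := ⟨_, rfl⟩
  rw [← hn'] at hn
  have hg' : g = 1 + n := by rw [hn']; abel
  have hpow : ∀ j : ℕ, (1 + n) ^ j = 1 + (j : k) • n := by
    intro j
    induction j with
    | zero => simp
    | succ j ih =>
      rw [pow_succ, ih, add_mul, mul_add, mul_add, one_mul, mul_one, Matrix.smul_mul, hn,
        smul_zero, add_zero, Nat.cast_succ, add_smul, one_smul, one_mul, add_assoc,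
        add_comm n]
  have h1 := hpow M
  rw [← hg'] at h1
  rw [hg] at h1
  have h2 : (M : k) • n = 0 := by
    have := h1
    rw [eq_comm, add_eq_left] at this
    exact this
  rcases smul_eq_zero.mp h2 with h | h
  · exact absurd h hM
  · rw [hg', h, add_zero]

end Unipotent

section UPair

variable {R : Type*} [CommRing R]

/-- `t = u + v`, `d = u v` with `u ^ M = v ^ M = 1`. -/
def IsUPair (M : ℕ) (t d : R) : Prop :=
  ∃ u v : R, u ^ M = 1 ∧ v ^ M = 1 ∧ t = u + v ∧ d = u * v

theorem IsUPair.two_one (M : ℕ) : IsUPair M (2 : R) 1 :=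
  ⟨1, 1, one_pow M, one_pow M, by norm_num, by simp⟩

theorem IsUPair.pow {M : ℕ} {t d : R} (h : IsUPair M t d) (j : ℕ) :
    IsUPair M (lucV t d j) (d ^ j) := by
  obtain ⟨u, v, hu, hv, rfl, rfl⟩ := h
  refine ⟨u ^ j, v ^ j, ?_, ?_, lucV_add_mul u v j, mul_pow u v j⟩
  · rw [← pow_mul, mul_comm, pow_mul, hu, one_pow]
  · rw [← pow_mul, mul_comm, pow_mul, hv, one_pow]

/-- In a domain, `u + v = 2`, `u v = 1` forces `u = v = 1`. -/
theorem eq_one_of_add_eq_two [IsDomain R] {u v : R} (h1 : u + v = 2) (h2 : u * v = 1) :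
    u = 1 ∧ v = 1 := by
  have h3 : (u - 1) * (v - 1) = 0 := by
    have : (u - 1) * (v - 1) = u * v - (u + v) + 1 := by ring
    rw [this, h1, h2]; ring
  rcases mul_eq_zero.mp h3 with h | h
  · have hu : u = 1 := sub_eq_zero.mp h
    refine ⟨hu, ?_⟩
    rw [hu] at h2
    simpa using h2
  · have hv : v = 1 := sub_eq_zero.mp h
    refine ⟨?_, hv⟩
    rw [hv] at h2
    simpa using h2

/-- The values of a `U`-pair are determined by the trivial pair: if `t = 2` and `d = 1` for the
`j`-th power, ... (used through `eq_one_of_add_eq_two`). -/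
theorem IsUPair.of_lucV_eq_two (M : ℕ) (hM : 0 < M) (t d : integralClosure ℤ ℂ)
    (h1 : lucV t d M = 2) (h2 : d ^ M = 1) : IsUPair M t d := by
  -- roots of `X² - t X + d` in `ℂ`
  obtain ⟨s, hs⟩ := IsAlgClosed.exists_pow_nat_eq ((t : ℂ) ^ 2 - 4 * (d : ℂ)) (n := 2) (by norm_num)
  set α : ℂ := ((t : ℂ) + s) / 2 with hα
  set β : ℂ := ((t : ℂ) - s) / 2 with hβ
  have hsum : α + β = (t : ℂ) := by rw [hα, hβ]; ring
  have hprod : α * β = (d : ℂ) := by
    rw [hα, hβ]
    have : ((t : ℂ) + s) / 2 * (((t : ℂ) - s) / 2) = ((t : ℂ) ^ 2 - s ^ 2) / 4 := by ring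
    rw [this, hs]; ring
  have h1' : lucV (t : ℂ) (d : ℂ) M = 2 := by
    have := congrArg (algebraMap (integralClosure ℤ ℂ) ℂ) h1
    rw [map_lucV, map_ofNat] at this
    exact this
  have h2' : (d : ℂ) ^ M = 1 := by
    have := congrArg (algebraMap (integralClosure ℤ ℂ) ℂ) h2
    simpa using this
  have h3 : α ^ M + β ^ M = 2 := by
    rw [← lucV_add_mul, hsum, hprod, h1']
  have h4 : α ^ M * β ^ M = 1 := by
    rw [← mul_pow, hprod, h2']
  obtain ⟨hu, hv⟩ := eq_one_of_add_eq_two h3 h4
  have hαi : IsIntegral ℤ α := by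
    refine IsIntegral.of_pow hM ?_
    rw [hu]; exact isIntegral_one
  have hβi : IsIntegral ℤ β := by
    refine IsIntegral.of_pow hM ?_
    rw [hv]; exact isIntegral_one
  refine ⟨⟨α, hαi⟩, ⟨β, hβi⟩, Subtype.ext ?_, Subtype.ext ?_, Subtype.ext ?_, Subtype.ext ?_⟩
  · simpa using hu
  · simpa using hv
  · simpa using hsum.symm
  · simpa using hprod.symm

end UPair

end Fermat.Agent.S48.Endgame
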