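/-
S48 (Deligne-Serre), seat END (helper2), file 2: reduction of algebraic integers modulo primes.

* `exists_bad_primes`: a finite set of algebraic integers is mapped injectively into every field
  of characteristic `ℓ`, for all primes `ℓ` outside a finite set;
* `eq_of_forall_exists_prime`: two algebraic integers with the same image in fields of
  characteristic `ℓ`, for primes `ℓ` outside every finite set, are equal;
* `exists_residue_field`: for every prime `ℓ` there is a ring homomorphism from the algebraic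
  integers to an algebraically closed field of characteristic `ℓ`;
* `exists_prime_notMem`: there are primes outside every finite set and above every bound.
-/
import Fermat.Agent.S48.Null.Zbar

set_option autoImplicit false

namespace Fermat.Agent.S48.Endgame

open Fermat.Agent.S48.Null

/-- A nonzero algebraic integer has nonzero image in every field of characteristic `ℓ`, for all
primes `ℓ` outside a finite set. -/
theorem exists_bad_primes_single (c : integralClosure ℤ ℂ) :
    ∃ Bad : Finset ℕ, c ≠ 0 → ∀ ℓ : ℕ, ℓ.Prime → ℓ ∉ Bad →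
      ∀ (k : Type) [Field k] [CharP k ℓ] (φ : integralClosure ℤ ℂ →+* k), φ c ≠ 0 := by
  by_cases hc : c = 0
  · exact ⟨∅, fun h => absurd hc h⟩
  obtain ⟨a, ha0, b, hab⟩ := exists_int_multiple c hc
  refine ⟨a.natAbs.primeFactors, fun _ ℓ hℓ hℓBad k _ _ φ hφ => hℓBad ?_⟩
  have h1 : φ (a : integralClosure ℤ ℂ) = 0 := by rw [hab, map_mul, hφ, zero_mul]
  rw [map_intCast] at h1
  have h2 : (ℓ : ℤ) ∣ a := (CharP.intCast_eq_zero_iff k ℓ a).mp h1
  rw [Nat.mem_primeFactors]
  exact ⟨hℓ, Int.natCast_dvd.mp h2, Int.natAbs_ne_zero.mpr ha0⟩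

/-- A finite set of algebraic integers is mapped injectively into every field of characteristic
`ℓ`, for all primes `ℓ` outside a finite set. -/
theorem exists_bad_primes (Z : Finset (integralClosure ℤ ℂ)) :
    ∃ Bad : Finset ℕ, ∀ ℓ : ℕ, ℓ.Prime → ℓ ∉ Bad →
      ∀ (k : Type) [Field k] [CharP k ℓ] (φ : integralClosure ℤ ℂ →+* k),
        ∀ x ∈ Z, ∀ y ∈ Z, φ x = φ y → x = y := by
  classical
  choose Bad hBad using exists_bad_primes_single
  refine ⟨(Z ×ˢ Z).biUnion fun xy => Bad (xy.1 - xy.2), ?_⟩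
  intro ℓ hℓ hℓBad k _ _ φ x hx y hy hxy
  by_contra hne
  have h1 : x - y ≠ 0 := sub_ne_zero.mpr hne
  have h2 : ℓ ∉ Bad (x - y) := by
    intro h
    apply hℓBad
    rw [Finset.mem_biUnion]
    exact ⟨(x, y), Finset.mem_product.mpr ⟨hx, hy⟩, h⟩
  apply hBad (x - y) h1 ℓ hℓ h2 k φ
  rw [map_sub, hxy, sub_self]

/-- Two algebraic integers with the same image in fields of characteristic `ℓ`, for primes `ℓ`
outside every finite set, are equal. -/
theorem eq_of_forall_exists_prime (x y : integralClosure ℤ ℂ)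
    (h : ∀ T : Finset ℕ, ∃ ℓ : ℕ, ℓ.Prime ∧ ℓ ∉ T ∧
      ∃ (k : Type) (_ : Field k) (_ : CharP k ℓ) (φ : integralClosure ℤ ℂ →+* k), φ x = φ y) :
    x = y := by
  classical
  obtain ⟨Bad, hBad⟩ := exists_bad_primes {x, y}
  obtain ⟨ℓ, hℓ, hℓBad, k, _, _, φ, hφ⟩ := h Bad
  exact hBad ℓ hℓ hℓBad k φ x (by simp) y (by simp) hφ

/-- There are primes outside every finite set and above every bound. -/
theorem exists_prime_notMem (T : Finset ℕ) (n : ℕ) : ∃ ℓ : ℕ, ℓ.Prime ∧ ℓ ∉ T ∧ n < ℓ := by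
  obtain ⟨ℓ, hℓ, hprime⟩ := Nat.exists_infinite_primes (max n (T.sup id) + 1)
  refine ⟨ℓ, hprime, fun hT => ?_, ?_⟩
  · have h1 : ℓ ≤ T.sup id := Finset.le_sup (f := id) hT
    have h2 : T.sup id ≤ max n (T.sup id) := le_max_right _ _
    omega
  · have h2 : n ≤ max n (T.sup id) := le_max_left _ _
    omega

/-- For every prime `ℓ` there is a ring homomorphism from the algebraic integers to an
algebraically closed field of characteristic `ℓ`. -/
theorem exists_residue_field (ℓ : ℕ) (hℓ : ℓ.Prime) :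
    ∃ (k : Type) (_ : Field k) (_ : CharP k ℓ) (_ : IsAlgClosed k),
      Nonempty (integralClosure ℤ ℂ →+* k) := by
  have hirr : Irreducible (ℓ : ℤ) := (Nat.prime_iff_prime_int.mp hℓ).irreducible
  have hmax : (Ideal.span {(ℓ : ℤ)}).IsMaximal :=
    PrincipalIdealRing.isMaximal_of_irreducible hirr
  have hker : RingHom.ker (algebraMap ℤ (integralClosure ℤ ℂ)) ≤ Ideal.span {(ℓ : ℤ)} := by
    intro x hx
    rw [RingHom.mem_ker] at hx
    have h1 : ((algebraMap ℤ (integralClosure ℤ ℂ) x : integralClosure ℤ ℂ) : ℂ) = 0 := by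
      rw [hx]; rfl
    have h2 : (x : ℂ) = 0 := by simpa using h1
    have h3 : x = 0 := by exact_mod_cast h2
    rw [h3]
    exact Ideal.zero_mem _
  obtain ⟨Q, hQmax, hQ⟩ :=
    Ideal.exists_ideal_over_maximal_of_isIntegral (S := integralClosure ℤ ℂ)
      (Ideal.span {(ℓ : ℤ)}) hker
  have := hQmax
  let _ : Field (integralClosure ℤ ℂ ⧸ Q) := Ideal.Quotient.field Q
  have hℓQ : (ℓ : integralClosure ℤ ℂ) ∈ Q := by
    have h1 : (ℓ : ℤ) ∈ Ideal.comap (algebraMap ℤ (integralClosure ℤ ℂ)) Q := by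
      rw [hQ]
      exact Ideal.subset_span rfl
    rw [Ideal.mem_comap] at h1
    simpa using h1
  have hchar : CharP (integralClosure ℤ ℂ ⧸ Q) ℓ := by
    rw [CharP.charP_iff_prime_eq_zero hℓ]
    have h1 : (Ideal.Quotient.mk Q) (ℓ : integralClosure ℤ ℂ) = 0 :=
      Ideal.Quotient.eq_zero_iff_mem.mpr hℓQ
    rw [map_natCast] at h1
    exact h1
  refine ⟨AlgebraicClosure (integralClosure ℤ ℂ ⧸ Q), inferInstance, ?_, inferInstance,
    ⟨(algebraMap (integralClosure ℤ ℂ ⧸ Q) (AlgebraicClosure (integralClosure ℤ ℂ ⧸ Q))).comp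
      (Ideal.Quotient.mk Q)⟩⟩
  exact charP_of_injective_algebraMap
    (algebraMap (integralClosure ℤ ℂ ⧸ Q) (AlgebraicClosure (integralClosure ℤ ℂ ⧸ Q))).injective ℓ

end Fermat.Agent.S48.Endgame
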