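/-
S48 (Deligne-Serre), seat END (helper2), file 3: mod-`ℓ` data.

`ModLDatum N ε a B ℓ`: a field `k` of characteristic `ℓ`, a ring homomorphism `φ : ℤ̄ → k` and a
mod-`ℓ` representation attached to `(a, ε)` via `φ` whose image has at most `B` elements.
`D.r : Gal(ℚ̄/ℚ) → M₂(k)` is the representation in a basis.
-/
import Fermat.Agent.S48.Defs
import Fermat.Agent.S48.End.Alg
import Fermat.Agent.S48.End.Primes
import Fermat.Agent.Lib.FrobDensity.Consumer

set_option autoImplicit false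

namespace Fermat.Agent.S48.Endgame

open Polynomial

local notation "Γℚ" => (AlgebraicClosure ℚ ≃ₐ[ℚ] AlgebraicClosure ℚ)

/-- A mod-`ℓ` representation attached to `(a, ε)` with image of order at most `B`. -/
structure ModLDatum (N : ℕ) (ε : DirichletCharacter ℂ N) (a : ℕ → ℂ) (B ℓ : ℕ) : Type 1 where
  /-- the coefficient field -/
  k : Type
  [instField : Field k]
  [instCharP : CharP k ℓ]
  /-- the reduction map -/
  φ : integralClosure ℤ ℂ →+* k
  /-- the representation -/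
  ρ : ResidualGaloisRep k
  prime : ℓ.Prime
  attached : IsAttachedModL N ε a ℓ φ ρ
  card_le : Nat.card (Set.range ρ.ρ) ≤ B

attribute [instance] ModLDatum.instField ModLDatum.instCharP

namespace ModLDatum

variable {N : ℕ} {ε : DirichletCharacter ℂ N} {a : ℕ → ℂ} {B ℓ : ℕ}
variable (D : ModLDatum N ε a B ℓ)

/-- A basis of the representation space. -/
noncomputable def basis : Module.Basis (Fin 2) D.k D.ρ.V :=
  Module.finBasisOfFinrankEq D.k D.ρ.V D.ρ.finrank_eq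

/-- The representation in matrix form. -/
noncomputable def r : Γℚ →* Matrix (Fin 2) (Fin 2) D.k where
  toFun σ := LinearMap.toMatrix D.basis D.basis (D.ρ.ρ σ)
  map_one' := by rw [map_one]; exact LinearMap.toMatrix_one D.basis
  map_mul' σ τ := by rw [map_mul]; exact LinearMap.toMatrix_mul D.basis _ _

theorem r_apply (σ : Γℚ) : D.r σ = LinearMap.toMatrix D.basis D.basis (D.ρ.ρ σ) := rfl

theorem r_eq_one_iff (σ : Γℚ) : D.r σ = 1 ↔ D.ρ.ρ σ = 1 := by
  rw [r_apply, ← LinearMap.toMatrix_one D.basis]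
  exact (LinearMap.toMatrix D.basis D.basis).injective.eq_iff

theorem r_charpoly (σ : Γℚ) : (D.r σ).charpoly = LinearMap.charpoly (D.ρ.ρ σ) :=
  LinearMap.charpoly_toMatrix _ _

theorem not_dvd_mul (D : ModLDatum N ε a B ℓ) {p : ℕ} (hp : p.Prime) (hpN : ¬ p ∣ N)
    (hpℓ : p ≠ ℓ) : ¬ p ∣ N * ℓ := by
  intro h
  rcases hp.dvd_mul.mp h with h | h
  · exact hpN h
  · exact hpℓ ((Nat.prime_dvd_prime_iff_eq hp D.prime).mp h)

/-- Trace and determinant at a Frobenius element. -/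
theorem r_frob {p : ℕ} (hp : p.Prime) (hpN : ¬ p ∣ N) (hpℓ : p ≠ ℓ)
    (A : ValuationSubring (AlgebraicClosure ℚ)) (hA : A.LiesOverPrime p) (σ : Γℚ)
    (hσ : A.IsFrobeniusAt σ p) :
    ∃ t d : integralClosure ℤ ℂ, (t : ℂ) = a p ∧ (d : ℂ) = ε (p : ZMod N) ∧
      (D.r σ).trace = D.φ t ∧ (D.r σ).det = D.φ d := by
  obtain ⟨t, d, ht, hd, hcp⟩ := (D.attached p hp (D.not_dvd_mul hp hpN hpℓ)).2 A hA σ hσ
  rw [← D.r_charpoly] at hcp
  exact ⟨t, d, ht, hd, trace_det_of_charpoly _ _ _ hcp⟩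

/-- Trace and determinant at a Frobenius element, for given lifts. -/
theorem r_frob' {p : ℕ} (hp : p.Prime) (hpN : ¬ p ∣ N) (hpℓ : p ≠ ℓ)
    (A : ValuationSubring (AlgebraicClosure ℚ)) (hA : A.LiesOverPrime p) (σ : Γℚ)
    (hσ : A.IsFrobeniusAt σ p) (t d : integralClosure ℤ ℂ) (ht : (t : ℂ) = a p)
    (hd : (d : ℂ) = ε (p : ZMod N)) :
    (D.r σ).trace = D.φ t ∧ (D.r σ).det = D.φ d := by
  obtain ⟨t', d', ht', hd', h1, h2⟩ := D.r_frob hp hpN hpℓ A hA σ hσ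
  have e1 : t' = t := Subtype.ext (ht'.trans ht.symm)
  have e2 : d' = d := Subtype.ext (hd'.trans hd.symm)
  rw [← e1, ← e2]
  exact ⟨h1, h2⟩

/-- The representation is unramified outside `N ℓ`. -/
theorem r_inertia {p : ℕ} (hp : p.Prime) (hpN : ¬ p ∣ N) (hpℓ : p ≠ ℓ)
    (A : ValuationSubring (AlgebraicClosure ℚ)) (hA : A.LiesOverPrime p) (σ : Γℚ)
    (hσ : σ ∈ A.inertiaSubgroupIn ℚ) : D.r σ = 1 :=
  (D.r_eq_one_iff σ).mpr ((D.attached p hp (D.not_dvd_mul hp hpN hpℓ)).1 A hA σ hσ)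

/-- The kernel. -/
noncomputable def ker : Subgroup Γℚ := D.ρ.ρ.ker

instance : D.ker.Normal := MonoidHom.normal_ker _

theorem mem_ker (σ : Γℚ) : σ ∈ D.ker ↔ D.r σ = 1 := by
  rw [r_eq_one_iff]
  exact MonoidHom.mem_ker

theorem exists_level : ∃ L : IntermediateField ℚ (AlgebraicClosure ℚ), FiniteDimensional ℚ L ∧
    L.fixingSubgroup ≤ D.ker := by
  obtain ⟨L, hL, h⟩ := D.ρ.factorsThroughFiniteLevel
  exact ⟨L, hL, fun σ hσ =>
    MonoidHom.mem_ker.mpr (h σ ((IntermediateField.mem_fixingSubgroup_iff L σ).mp hσ))⟩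

theorem isOpen_ker : IsOpen (D.ker : Set Γℚ) := by
  obtain ⟨L, hL, h⟩ := D.exists_level
  exact Subgroup.isOpen_mono h L.fixingSubgroup_isOpen

theorem finite_quotient_ker : Finite (Γℚ ⧸ D.ker) := by
  have : IsGalois ℚ (AlgebraicClosure ℚ) := Fermat.Agent.FrobDensity.consumer_isGalois_Qb
  exact Subgroup.quotient_finite_of_isOpen D.ker D.isOpen_ker

/-- `r` is constant on the cosets of the kernel. -/
theorem r_eq_of_mem_ker {σ τ : Γℚ} (h : σ⁻¹ * τ ∈ D.ker) : D.r τ = D.r σ := by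
  have h1 : D.r (σ⁻¹ * τ) = 1 := (D.mem_ker _).mp h
  have h2 : τ = σ * (σ⁻¹ * τ) := by group
  rw [h2, map_mul, h1, mul_one]

theorem finite_range : (Set.range D.ρ.ρ).Finite := by
  have hfin := D.finite_quotient_ker
  refine (Set.finite_range fun q : Γℚ ⧸ D.ker => D.ρ.ρ (Quotient.out q)).subset ?_
  rintro _ ⟨σ, rfl⟩
  obtain ⟨h, hh⟩ := QuotientGroup.mk_out_eq_mul D.ker σ
  refine ⟨(σ : Γℚ ⧸ D.ker), ?_⟩
  show D.ρ.ρ (Quotient.out (σ : Γℚ ⧸ D.ker)) = D.ρ.ρ σ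
  rw [hh, map_mul, MonoidHom.mem_ker.mp h.2, mul_one]

theorem rho_pow_sub {σ : Γℚ} {i j : ℕ} (hij : i < j) (h : D.ρ.ρ (σ ^ i) = D.ρ.ρ (σ ^ j)) :
    D.ρ.ρ (σ ^ (j - i)) = 1 := by
  have h1 : σ ^ (j - i) = σ ^ j * (σ ^ i)⁻¹ := by
    rw [eq_mul_inv_iff_mul_eq, ← pow_add, Nat.sub_add_cancel hij.le]
  rw [h1, map_mul, ← h, ← map_mul, mul_inv_cancel, map_one]

/-- Every element of the image is killed by `B !`. -/
theorem r_pow (σ : Γℚ) : D.r σ ^ B.factorial = 1 := by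
  classical
  have hfin := D.finite_range
  have hcard : hfin.toFinset.card < (Finset.range (B + 1)).card := by
    rw [Finset.card_range, ← Set.ncard_eq_toFinset_card _ hfin, ← Nat.card_coe_set_eq]
    exact Nat.lt_succ_of_le D.card_le
  obtain ⟨i, hi, j, hj, hne, hij⟩ :=
    Finset.exists_ne_map_eq_of_card_lt_of_maps_to hcard (f := fun i : ℕ => D.ρ.ρ (σ ^ i))
      (fun i _ => by
        show D.ρ.ρ (σ ^ i) ∈ (hfin.toFinset : Set _)
        rw [Set.Finite.coe_toFinset]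
        exact ⟨_, rfl⟩)
  have key : ∀ i j : ℕ, i < j → j ≤ B → D.ρ.ρ (σ ^ i) = D.ρ.ρ (σ ^ j) →
      D.r σ ^ B.factorial = 1 := by
    intro i j hlt hjB h
    have h1 := D.rho_pow_sub hlt h
    have hdvd : (j - i) ∣ B.factorial := Nat.dvd_factorial (Nat.sub_pos_of_lt hlt) (by omega)
    obtain ⟨c, hc⟩ := hdvd
    rw [← map_pow, hc, pow_mul, map_pow, (D.r_eq_one_iff _).mpr h1, one_pow]
  rw [Finset.mem_range] at hi hj
  rcases Nat.lt_or_gt_of_ne hne with h | h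
  · exact key i j h (by omega) hij
  · exact key j i h (by omega) hij.symm

theorem factorial_ne_zero (hB : B < ℓ) : ((B.factorial : ℕ) : D.k) ≠ 0 := by
  intro h
  have h1 : ℓ ∣ B.factorial := (CharP.cast_eq_zero_iff D.k ℓ _).mp h
  exact absurd ((D.prime.dvd_factorial).mp h1) (by omega)

end ModLDatum

end Fermat.Agent.S48.Endgame
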