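/-
S48 (Deligne-Serre), seat END (helper2), file 4: roots of unity and equal kernels.

* `isUPair_frob`: for every prime `p ∤ N`, `a_p = u + v`, `ε(p) = u v` with `u, v` roots of unity
  of order dividing `B !`;
* `exists_ker_eq`: the kernels of the mod-`ℓ` representations coincide for all `ℓ` outside a
  finite set.
-/
import Fermat.Agent.S48.End.Datum
import Fermat.Agent.Lib.FrobDensity.Main

set_option autoImplicit false

namespace Fermat.Agent.S48.Endgame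

open Polynomial

local notation "Γℚ" => (AlgebraicClosure ℚ ≃ₐ[ℚ] AlgebraicClosure ℚ)

/-- Mod-`ℓ` data exist for all primes `ℓ` outside `S`. -/
def HasData (N : ℕ) (ε : DirichletCharacter ℂ N) (a : ℕ → ℂ) (B : ℕ) (S : Finset ℕ) : Prop :=
  ∀ ℓ : ℕ, ℓ.Prime → ℓ ∉ S → Nonempty (ModLDatum N ε a B ℓ)

theorem hasData_of_bounded {N : ℕ} {ε : DirichletCharacter ℂ N} {a : ℕ → ℂ} {B : ℕ}
    {S : Finset ℕ}
    (h : ∀ ℓ : ℕ, ℓ.Prime → ℓ ∉ S →
      ∀ (k : Type) [Field k] [CharP k ℓ] [IsAlgClosed k] (φ : integralClosure ℤ ℂ →+* k),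
        ∃ ρ : ResidualGaloisRep k, IsAttachedModL N ε a ℓ φ ρ ∧ Nat.card (Set.range ρ.ρ) ≤ B) :
    HasData N ε a B S := by
  intro ℓ hℓ hℓS
  obtain ⟨k, hk, hchar, hac, ⟨φ⟩⟩ := exists_residue_field ℓ hℓ
  obtain ⟨ρ, hatt, hcard⟩ := h ℓ hℓ hℓS k φ
  exact ⟨{ k := k, φ := φ, ρ := ρ, prime := hℓ, attached := hatt, card_le := hcard }⟩

variable {N : ℕ} {ε : DirichletCharacter ℂ N} {a : ℕ → ℂ} {B : ℕ} {S : Finset ℕ}

/-- For every prime `p ∤ N`: `a_p = u + v`, `ε(p) = u v` with `u ^ (B !) = v ^ (B !) = 1`. -/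
theorem isUPair_frob (hdat : HasData N ε a B S) {p : ℕ} (hp : p.Prime) (hpN : ¬ p ∣ N)
    (A : ValuationSubring (AlgebraicClosure ℚ)) (hA : A.LiesOverPrime p) (σ : Γℚ)
    (hσ : A.IsFrobeniusAt σ p) :
    ∃ t d : integralClosure ℤ ℂ, (t : ℂ) = a p ∧ (d : ℂ) = ε (p : ZMod N) ∧
      IsUPair B.factorial t d := by
  classical
  obtain ⟨ℓ₀, hℓ₀, hℓ₀S, -⟩ := exists_prime_notMem (S ∪ {p}) 0
  obtain ⟨D₀⟩ := hdat ℓ₀ hℓ₀ (fun h => hℓ₀S (Finset.mem_union_left _ h))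
  have hpℓ₀ : p ≠ ℓ₀ := fun h => hℓ₀S (Finset.mem_union_right _ (by simp [h]))
  obtain ⟨t, d, ht, hd, -, -⟩ := D₀.r_frob hp hpN hpℓ₀ A hA σ hσ
  refine ⟨t, d, ht, hd, IsUPair.of_lucV_eq_two _ (Nat.factorial_pos B) t d ?_ ?_⟩
  · apply eq_of_forall_exists_prime
    intro T
    obtain ⟨ℓ, hℓ, hℓT, -⟩ := exists_prime_notMem (T ∪ (S ∪ {p})) 0
    obtain ⟨D⟩ := hdat ℓ hℓ
      (fun h => hℓT (Finset.mem_union_right _ (Finset.mem_union_left _ h)))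
    have hpℓ : p ≠ ℓ := fun h =>
      hℓT (Finset.mem_union_right _ (Finset.mem_union_right _ (by simp [h])))
    obtain ⟨h1, h2⟩ := D.r_frob' hp hpN hpℓ A hA σ hσ t d ht hd
    refine ⟨ℓ, hℓ, fun h => hℓT (Finset.mem_union_left _ h), D.k, inferInstance, inferInstance,
      D.φ, ?_⟩
    rw [map_lucV, ← h1, ← h2, ← trace_pow_eq_lucV, D.r_pow, Matrix.trace_one, map_ofNat]
    simp
  · apply eq_of_forall_exists_prime
    intro T
    obtain ⟨ℓ, hℓ, hℓT, -⟩ := exists_prime_notMem (T ∪ (S ∪ {p})) 0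
    obtain ⟨D⟩ := hdat ℓ hℓ
      (fun h => hℓT (Finset.mem_union_right _ (Finset.mem_union_left _ h)))
    have hpℓ : p ≠ ℓ := fun h =>
      hℓT (Finset.mem_union_right _ (Finset.mem_union_right _ (by simp [h])))
    obtain ⟨h1, h2⟩ := D.r_frob' hp hpN hpℓ A hA σ hσ t d ht hd
    refine ⟨ℓ, hℓ, fun h => hℓT (Finset.mem_union_left _ h), D.k, inferInstance, inferInstance,
      D.φ, ?_⟩
    rw [map_pow, ← h2, ← Matrix.det_pow, D.r_pow, Matrix.det_one, map_one]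

/-- The values of the `U`-pairs lie in a finite set. -/
theorem exists_finset_isUPair (M : ℕ) (hM : 0 < M) :
    ∃ Z : Finset (integralClosure ℤ ℂ), ∀ t d, IsUPair M t d → t ∈ Z ∧ d ∈ Z := by
  classical
  let μ : Finset (integralClosure ℤ ℂ) := Polynomial.nthRootsFinset M (1 : integralClosure ℤ ℂ)
  refine ⟨(μ ×ˢ μ).image (fun uv => uv.1 + uv.2) ∪ (μ ×ˢ μ).image (fun uv => uv.1 * uv.2), ?_⟩
  rintro t d ⟨u, v, hu, hv, rfl, rfl⟩
  have hu' : u ∈ μ := (Polynomial.mem_nthRootsFinset hM 1).mpr hu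
  have hv' : v ∈ μ := (Polynomial.mem_nthRootsFinset hM 1).mpr hv
  constructor
  · exact Finset.mem_union_left _
      (Finset.mem_image.mpr ⟨(u, v), Finset.mem_product.mpr ⟨hu', hv'⟩, rfl⟩)
  · exact Finset.mem_union_right _
      (Finset.mem_image.mpr ⟨(u, v), Finset.mem_product.mpr ⟨hu', hv'⟩, rfl⟩)

/-- The kernels of the mod-`ℓ` representations are contained in each other, for `ℓ` outside a
finite set. -/
theorem exists_ker_le [NeZero N] (hdat : HasData N ε a B S) :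
    ∃ T : Finset ℕ, S ⊆ T ∧ ∀ ℓ ℓ' : ℕ, ℓ ∉ T → ℓ' ∉ T →
      ∀ (D : ModLDatum N ε a B ℓ) (D' : ModLDatum N ε a B ℓ'), D.ker ≤ D'.ker := by
  classical
  obtain ⟨Z, hZ⟩ := exists_finset_isUPair B.factorial (Nat.factorial_pos B)
  obtain ⟨Bad, hBad⟩ := exists_bad_primes Z
  refine ⟨S ∪ Bad ∪ Finset.range (B + 1), fun x hx =>
    Finset.mem_union_left _ (Finset.mem_union_left _ hx), ?_⟩
  intro ℓ ℓ' hℓ hℓ' D D' σ hσ
  rw [ModLDatum.mem_ker] at hσ ⊢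
  have hℓBad : ℓ ∉ Bad := fun h => hℓ (Finset.mem_union_left _ (Finset.mem_union_right _ h))
  have hBℓ' : B < ℓ' := by
    by_contra h
    exact hℓ' (Finset.mem_union_right _ (Finset.mem_range.mpr (by omega)))
  have hU : IsOpen ((D.ker ⊓ D'.ker : Subgroup Γℚ) : Set Γℚ) := by
    rw [Subgroup.coe_inf]
    exact D.isOpen_ker.inter D'.isOpen_ker
  obtain ⟨p, A, τ, k, j, hp, hpS, hA, hτ, -, h2⟩ :=
    Fermat.Agent.FrobDensity.frobenius_density_open (D.ker ⊓ D'.ker) hU σ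
      (N.primeFactors ∪ {ℓ, ℓ'})
  have hpN : ¬ p ∣ N := fun h => hpS (Finset.mem_union_left _
    (Nat.mem_primeFactors.mpr ⟨hp, h, NeZero.ne N⟩))
  have hpℓ : p ≠ ℓ := fun h => hpS (Finset.mem_union_right _ (by simp [h]))
  have hpℓ' : p ≠ ℓ' := fun h => hpS (Finset.mem_union_right _ (by simp [h]))
  obtain ⟨h2a, h2b⟩ := Subgroup.mem_inf.mp h2
  have e1 : D.r (τ ^ j) = D.r σ := D.r_eq_of_mem_ker h2a
  have e2 : D'.r (τ ^ j) = D'.r σ := D'.r_eq_of_mem_ker h2b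
  obtain ⟨t, d, ht, hd, hup⟩ := isUPair_frob hdat hp hpN A hA τ hτ
  obtain ⟨h1, h1'⟩ := D.r_frob' hp hpN hpℓ A hA τ hτ t d ht hd
  obtain ⟨h3, h3'⟩ := D'.r_frob' hp hpN hpℓ' A hA τ hτ t d ht hd
  have hupj := hup.pow j
  have ea : D.φ (lucV t d j) = D.φ 2 := by
    rw [map_lucV, ← h1, ← h1', ← trace_pow_eq_lucV, ← map_pow, e1, hσ, Matrix.trace_one,
      map_ofNat]
    simp
  have eb : D.φ (d ^ j) = D.φ 1 := by
    rw [map_pow, ← h1', ← Matrix.det_pow, ← map_pow, e1, hσ, Matrix.det_one, map_one]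
  have f1 : lucV t d j = 2 :=
    hBad ℓ D.prime hℓBad D.k D.φ _ (hZ _ _ hupj).1 _ (hZ _ _ (IsUPair.two_one _)).1 ea
  have f2 : d ^ j = 1 :=
    hBad ℓ D.prime hℓBad D.k D.φ _ (hZ _ _ hupj).2 _ (hZ _ _ (IsUPair.two_one _)).2 eb
  apply eq_one_of_pow_eq_one (D'.r σ) B.factorial (D'.factorial_ne_zero hBℓ') (D'.r_pow σ)
  · rw [← e2, map_pow, trace_pow_eq_lucV, h3, h3', ← map_lucV, f1, map_ofNat]
  · rw [← e2, map_pow, Matrix.det_pow, h3', ← map_pow, f2, map_one]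

/-- The kernels of the mod-`ℓ` representations coincide, for `ℓ` outside a finite set. -/
theorem exists_ker_eq [NeZero N] (hdat : HasData N ε a B S) :
    ∃ T : Finset ℕ, S ⊆ T ∧ ∀ ℓ ℓ' : ℕ, ℓ ∉ T → ℓ' ∉ T →
      ∀ (D : ModLDatum N ε a B ℓ) (D' : ModLDatum N ε a B ℓ'), D.ker = D'.ker := by
  obtain ⟨T, hST, hT⟩ := exists_ker_le hdat
  exact ⟨T, hST, fun ℓ ℓ' hℓ hℓ' D D' => le_antisymm (hT ℓ ℓ' hℓ hℓ' D D') (hT ℓ' ℓ hℓ' hℓ D' D)⟩

end Fermat.Agent.S48.Endgame
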