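/-
S48 (Deligne-Serre), seat END (helper2), file 5: the complex representation.

`complexRepStatement_of : BoundedStatement → ComplexRepStatement`.

Proof.  Let `ρ_ℓ` (`ℓ ∉ S`) be the mod-`ℓ` representations with image of order `≤ B`.
* (`Kernel.lean`) the kernels of the `ρ_ℓ` coincide for `ℓ ∉ T` (`T` finite): call it `U`;
* every `σ` is, modulo `U`, a power `τ ^ j` of a Frobenius element at a prime `p ∤ N` (Frobenius
  density), so `tr ρ_ℓ(σ) = φ_ℓ(V_j(a_p, ε(p)))` for all `ℓ ∉ T`, `ℓ ≠ p`;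
* the Nullstellensatz (`Null.exists_complex_rep`) gives `ρ₀ : Gal(ℚ̄/ℚ)/U → GL₂(ℂ)` with these
  traces and determinants;
* `ρ₀` is unramified at `p ∤ N` (use `ℓ ≠ p`), and `tr ρ₀(Frob_p) = a_p` because both sides are
  algebraic integers with the same reduction modulo infinitely many primes.
-/
import Fermat.Agent.S48.End.Kernel
import Fermat.Agent.S48.Null.Rep

set_option autoImplicit false

namespace Fermat.Agent.S48.Endgame

open Polynomial CongruenceSubgroup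

local notation "Γℚ" => (AlgebraicClosure ℚ ≃ₐ[ℚ] AlgebraicClosure ℚ)

variable {N : ℕ} {ε : DirichletCharacter ℂ N} {a : ℕ → ℂ} {B : ℕ} {S : Finset ℕ}

/-- Every element of the Galois group has a trace and a determinant in `ℤ̄`, compatible with
almost all the mod-`ℓ` representations. -/
theorem exists_trace_det [NeZero N] (hdat : HasData N ε a B S) (T : Finset ℕ) (hST : S ⊆ T)
    (hT : ∀ ℓ ℓ' : ℕ, ℓ ∉ T → ℓ' ∉ T →
      ∀ (D : ModLDatum N ε a B ℓ) (D' : ModLDatum N ε a B ℓ'), D.ker = D'.ker) (σ : Γℚ) :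
    ∃ (t d : integralClosure ℤ ℂ) (p : ℕ), ∀ ℓ : ℕ, ℓ ∉ T → ℓ ≠ p →
      ∀ D : ModLDatum N ε a B ℓ, (D.r σ).trace = D.φ t ∧ (D.r σ).det = D.φ d := by
  classical
  obtain ⟨ℓ₀, hℓ₀, hℓ₀T, -⟩ := exists_prime_notMem T 0
  obtain ⟨D₀⟩ := hdat ℓ₀ hℓ₀ (fun h => hℓ₀T (hST h))
  obtain ⟨p, A, τ, k, j, hp, hpS, hA, hτ, -, h2⟩ :=
    Fermat.Agent.FrobDensity.frobenius_density_open D₀.ker D₀.isOpen_ker σ N.primeFactors
  have hpN : ¬ p ∣ N := fun h => hpS (Nat.mem_primeFactors.mpr ⟨hp, h, NeZero.ne N⟩)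
  obtain ⟨t, d, ht, hd, -⟩ := isUPair_frob hdat hp hpN A hA τ hτ
  refine ⟨lucV t d j, d ^ j, p, fun ℓ hℓ hℓp D => ?_⟩
  have hker : D₀.ker = D.ker := hT ℓ₀ ℓ hℓ₀T hℓ D₀ D
  have e1 : D.r (τ ^ j) = D.r σ := D.r_eq_of_mem_ker (hker ▸ h2)
  obtain ⟨h1, h1'⟩ := D.r_frob' hp hpN (fun h => hℓp h.symm) A hA τ hτ t d ht hd
  constructor
  · rw [← e1, map_pow, trace_pow_eq_lucV, h1, h1', ← map_lucV]
  · rw [← e1, map_pow, Matrix.det_pow, h1', ← map_pow]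

/-- The complex representation, from the mod-`ℓ` data. -/
theorem complexRep_of_hasData [NeZero N] (hdat : HasData N ε a B S) :
    ∃ ρ : Γℚ →* GL (Fin 2) ℂ, GaloisFactorsThroughFiniteLevel ρ ∧
      ∀ p : ℕ, p.Prime → ¬ p ∣ N →
        ∀ A : ValuationSubring (AlgebraicClosure ℚ), A.LiesOverPrime p →
          (∀ σ ∈ A.inertiaSubgroupIn ℚ, ρ σ = 1) ∧
          ∀ σ : Γℚ, A.IsFrobeniusAt σ p →
            ((ρ σ : GL (Fin 2) ℂ) : Matrix (Fin 2) (Fin 2) ℂ).trace = a p ∧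
            ((ρ σ : GL (Fin 2) ℂ) : Matrix (Fin 2) (Fin 2) ℂ).det = ε (p : ZMod N) := by
  classical
  obtain ⟨T, hST, hT⟩ := exists_ker_eq hdat
  obtain ⟨ℓ₀, hℓ₀, hℓ₀T, -⟩ := exists_prime_notMem T 0
  obtain ⟨D₀⟩ := hdat ℓ₀ hℓ₀ (fun h => hℓ₀T (hST h))
  have hfin : Finite (Γℚ ⧸ D₀.ker) := D₀.finite_quotient_ker
  -- traces and determinants on the quotient
  have hTD : ∀ g : Γℚ ⧸ D₀.ker, ∃ (t d : integralClosure ℤ ℂ) (p : ℕ), ∀ ℓ : ℕ, ℓ ∉ T →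
      ℓ ≠ p → ∀ D : ModLDatum N ε a B ℓ, ∀ σ : Γℚ, (σ : Γℚ ⧸ D₀.ker) = g →
        (D.r σ).trace = D.φ t ∧ (D.r σ).det = D.φ d := by
    intro g
    obtain ⟨σ₀, rfl⟩ := QuotientGroup.mk_surjective g
    obtain ⟨t, d, p, h⟩ := exists_trace_det hdat T hST hT σ₀
    refine ⟨t, d, p, fun ℓ hℓ hℓp D σ hσ => ?_⟩
    have hker : D₀.ker = D.ker := hT ℓ₀ ℓ hℓ₀T hℓ D₀ D
    have hmem : σ₀⁻¹ * σ ∈ D.ker := by
      rw [← hker]
      exact QuotientGroup.eq.mp hσ.symm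
    rw [D.r_eq_of_mem_ker hmem]
    exact h ℓ hℓ hℓp D
  choose t d pbad htd using hTD
  have hfintype : Fintype (Γℚ ⧸ D₀.ker) := Fintype.ofFinite _
  -- the Nullstellensatz
  obtain ⟨ρ₀, hρ₀⟩ := Fermat.Agent.S48.Null.exists_complex_rep t d (by
    intro n
    obtain ⟨ℓ, hℓ, hℓT, hnℓ⟩ := exists_prime_notMem (T ∪ Finset.univ.image pbad) n
    have hℓT' : ℓ ∉ T := fun h => hℓT (Finset.mem_union_left _ h)
    obtain ⟨D⟩ := hdat ℓ hℓ (fun h => hℓT' (hST h))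
    have hker : D₀.ker = D.ker := hT ℓ₀ ℓ hℓ₀T hℓT' D₀ D
    have hle : D₀.ker ≤ (D.r.toHomUnits).ker := by
      intro σ hσ
      rw [MonoidHom.mem_ker]
      apply Units.ext
      rw [MonoidHom.coe_toHomUnits]
      exact (D.mem_ker σ).mp (hker ▸ hσ)
    refine ⟨ℓ, hnℓ, D.k, inferInstance, inferInstance, D.φ,
      QuotientGroup.lift D₀.ker D.r.toHomUnits hle, fun g => ?_⟩
    obtain ⟨σ, rfl⟩ := QuotientGroup.mk_surjective g
    have hp : ℓ ≠ pbad (σ : Γℚ ⧸ D₀.ker) := fun h =>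
      hℓT (Finset.mem_union_right _ (Finset.mem_image.mpr ⟨_, Finset.mem_univ _, h.symm⟩))
    have h1 := htd (σ : Γℚ ⧸ D₀.ker) ℓ hℓT' hp D σ rfl
    rw [QuotientGroup.lift_mk, MonoidHom.coe_toHomUnits]
    exact h1)
  have hmk1 : ∀ σ : Γℚ, σ ∈ D₀.ker → (ρ₀.comp (QuotientGroup.mk' D₀.ker)) σ = 1 := by
    intro σ hσ
    rw [MonoidHom.comp_apply, QuotientGroup.mk'_apply, (QuotientGroup.eq_one_iff σ).mpr hσ,
      map_one]
  refine ⟨ρ₀.comp (QuotientGroup.mk' D₀.ker), ?_, ?_⟩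
  · obtain ⟨L, hL, h⟩ := D₀.exists_level
    exact ⟨L, hL, fun σ hσ =>
      hmk1 σ (h ((IntermediateField.mem_fixingSubgroup_iff L σ).mpr hσ))⟩
  · intro p hp hpN A hA
    constructor
    · intro σ hσ
      obtain ⟨ℓ, hℓ, hℓT, -⟩ := exists_prime_notMem (T ∪ {p}) 0
      have hℓT' : ℓ ∉ T := fun h => hℓT (Finset.mem_union_left _ h)
      have hpℓ : p ≠ ℓ := fun h => hℓT (Finset.mem_union_right _ (by simp [h]))
      obtain ⟨D⟩ := hdat ℓ hℓ (fun h => hℓT' (hST h))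
      have hker : D₀.ker = D.ker := hT ℓ₀ ℓ hℓ₀T hℓT' D₀ D
      apply hmk1
      rw [hker, D.mem_ker]
      exact D.r_inertia hp hpN hpℓ A hA σ hσ
    · intro σ hσ
      obtain ⟨h1, h2⟩ := hρ₀ (σ : Γℚ ⧸ D₀.ker)
      obtain ⟨tp, dp, htp, hdp, -⟩ := isUPair_frob hdat hp hpN A hA σ hσ
      have key : ∀ T' : Finset ℕ, ∃ ℓ : ℕ, ℓ.Prime ∧ ℓ ∉ T' ∧
          ∃ (k : Type) (_ : Field k) (_ : CharP k ℓ) (φ : integralClosure ℤ ℂ →+* k),
            φ (t (σ : Γℚ ⧸ D₀.ker)) = φ tp ∧ φ (d (σ : Γℚ ⧸ D₀.ker)) = φ dp := by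
        intro T'
        obtain ⟨ℓ, hℓ, hℓT, -⟩ :=
          exists_prime_notMem (T' ∪ (T ∪ {p, pbad (σ : Γℚ ⧸ D₀.ker)})) 0
        have hℓT' : ℓ ∉ T := fun h =>
          hℓT (Finset.mem_union_right _ (Finset.mem_union_left _ h))
        have hpℓ : p ≠ ℓ := fun h =>
          hℓT (Finset.mem_union_right _ (Finset.mem_union_right _ (by simp [h])))
        have hℓbad : ℓ ≠ pbad (σ : Γℚ ⧸ D₀.ker) := fun h =>
          hℓT (Finset.mem_union_right _ (Finset.mem_union_right _ (by simp [h])))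
        obtain ⟨D⟩ := hdat ℓ hℓ (fun h => hℓT' (hST h))
        obtain ⟨e1, e2⟩ := htd (σ : Γℚ ⧸ D₀.ker) ℓ hℓT' hℓbad D σ rfl
        obtain ⟨e3, e4⟩ := D.r_frob' hp hpN hpℓ A hA σ hσ tp dp htp hdp
        exact ⟨ℓ, hℓ, fun h => hℓT (Finset.mem_union_left _ h), D.k, inferInstance,
          inferInstance, D.φ, e1.symm.trans e3, e2.symm.trans e4⟩
      have et : t (σ : Γℚ ⧸ D₀.ker) = tp := by
        apply eq_of_forall_exists_prime
        intro T'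
        obtain ⟨ℓ, hℓ, hℓT', k, i1, i2, φ, h, -⟩ := key T'
        exact ⟨ℓ, hℓ, hℓT', k, i1, i2, φ, h⟩
      have ed : d (σ : Γℚ ⧸ D₀.ker) = dp := by
        apply eq_of_forall_exists_prime
        intro T'
        obtain ⟨ℓ, hℓ, hℓT', k, i1, i2, φ, -, h⟩ := key T'
        exact ⟨ℓ, hℓ, hℓT', k, i1, i2, φ, h⟩
      constructor
      · rw [MonoidHom.comp_apply, QuotientGroup.mk'_apply, h1, et, htp]
      · rw [MonoidHom.comp_apply, QuotientGroup.mk'_apply, h2, ed, hdp]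

/-- **(END)** `BoundedStatement → ComplexRepStatement`. -/
theorem complexRepStatement_of (h : BoundedStatement) : ComplexRepStatement := by
  intro N _ ε f hf
  obtain ⟨S, B, hSB⟩ := h N ε f hf
  exact complexRep_of_hasData (hasData_of_bounded hSB)

end Fermat.Agent.S48.Endgame
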